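import Mathlib
import Fermat.Prelude.Def_GaloisRep_Adic

/-!
# S58, leaf CHEB — abstract core (helper93)

Mathlib + Prelude only.

* `baseChange_eq_of_sub_mem_h93` : two endomorphisms congruent modulo `I • ⊤` have the same base
  change to `R ⧸ I`.
* `charpoly_coeff_sub_mem_h93`   : hence their characteristic polynomials are congruent modulo `I`.
* `poly_eq_of_coeff_sub_mem_pow_h93` : Krull intersection for polynomials over a noetherian local
  ring.
* `rho_sub_mem_of_eqOn_h93` : adic continuity in the form "if `τ = σ` on the level `L_n` then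
  `ρ τ ≡ ρ σ` modulo `𝔪 ^ n`".
* `charpoly_eq_of_approx_h93` : the abstract form of leaf CHEB: if every `σ` can be approximated
  on every finite level by elements at which the characteristic polynomials of `ρ₁`, `ρ₂` agree,
  then they agree everywhere.
-/

set_option autoImplicit false

open Polynomial TensorProduct

namespace Fermat.Agent.S58.H93

section Algebra

variable {R : Type*} [CommRing R] {V : Type*} [AddCommGroup V] [Module R V]

/-- A linear map preserves `I • ⊤`. -/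
theorem map_mem_smul_top_h93 (I : Ideal R) (f : Module.End R V) {x : V}
    (hx : x ∈ I • (⊤ : Submodule R V)) : f x ∈ I • (⊤ : Submodule R V) := by
  refine Submodule.smul_induction_on (p := fun x => f x ∈ I • (⊤ : Submodule R V)) hx ?_ ?_
  · intro a ha w _
    rw [map_smul]
    exact Submodule.smul_mem_smul ha Submodule.mem_top
  · intro x y hx hy
    rw [map_add]
    exact Submodule.add_mem _ hx hy

/-- Elements of `I • ⊤` die in `(R ⧸ I) ⊗ V`. -/
theorem tmul_eq_zero_of_mem_smul_top_h93 (I : Ideal R) (c : R ⧸ I) {x : V}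
    (hx : x ∈ I • (⊤ : Submodule R V)) : c ⊗ₜ[R] x = (0 : (R ⧸ I) ⊗[R] V) := by
  refine Submodule.smul_induction_on
    (p := fun x => c ⊗ₜ[R] x = (0 : (R ⧸ I) ⊗[R] V)) hx ?_ ?_
  · intro a ha w _
    rw [TensorProduct.tmul_smul, TensorProduct.smul_tmul', Algebra.smul_def,
      Ideal.Quotient.algebraMap_eq, Ideal.Quotient.eq_zero_iff_mem.mpr ha, zero_mul,
      TensorProduct.zero_tmul]
  · intro x y hx hy
    rw [TensorProduct.tmul_add, hx, hy, add_zero]

/-- Two endomorphisms congruent modulo `I • ⊤` have the same base change to `R ⧸ I`. -/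
theorem baseChange_eq_of_sub_mem_h93 (I : Ideal R) (f g : Module.End R V)
    (h : ∀ v, f v - g v ∈ I • (⊤ : Submodule R V)) :
    f.baseChange (R ⧸ I) = g.baseChange (R ⧸ I) := by
  refine LinearMap.ext fun w => ?_
  induction w using TensorProduct.induction_on with
  | zero => rw [map_zero, map_zero]
  | tmul c v =>
    rw [LinearMap.baseChange_tmul, LinearMap.baseChange_tmul, ← sub_eq_zero,
      ← TensorProduct.tmul_sub]
    exact tmul_eq_zero_of_mem_smul_top_h93 I c (h v)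
  | add x y hx hy => rw [map_add, map_add, hx, hy]

/-- Two endomorphisms of a finite free module congruent modulo `I • ⊤` have characteristic
polynomials congruent modulo `I`. -/
theorem charpoly_coeff_sub_mem_h93 [Module.Free R V] [Module.Finite R V] (I : Ideal R)
    (f g : Module.End R V) (h : ∀ v, f v - g v ∈ I • (⊤ : Submodule R V)) (k : ℕ) :
    (LinearMap.charpoly f).coeff k - (LinearMap.charpoly g).coeff k ∈ I := by
  have h1 := baseChange_eq_of_sub_mem_h93 I f g h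
  have h2 : (LinearMap.charpoly f).map (algebraMap R (R ⧸ I)) =
      (LinearMap.charpoly g).map (algebraMap R (R ⧸ I)) := by
    rw [← LinearMap.charpoly_baseChange, ← LinearMap.charpoly_baseChange, h1]
  have h3 := congrArg (fun p : (R ⧸ I)[X] => p.coeff k) h2
  simp only [Polynomial.coeff_map, Ideal.Quotient.algebraMap_eq] at h3
  exact Ideal.Quotient.eq.mp h3

/-- Krull intersection, for polynomials over a noetherian local ring. -/
theorem poly_eq_of_coeff_sub_mem_pow_h93 {O : Type*} [CommRing O] [IsNoetherianRing O]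
    [IsLocalRing O] (p q : O[X])
    (h : ∀ n k : ℕ, p.coeff k - q.coeff k ∈ IsLocalRing.maximalIdeal O ^ n) : p = q := by
  ext k
  have hbot : ⨅ i : ℕ, IsLocalRing.maximalIdeal O ^ i = ⊥ :=
    Ideal.iInf_pow_eq_bot_of_isLocalRing _ (Ideal.IsMaximal.ne_top inferInstance)
  have hmem : p.coeff k - q.coeff k ∈ ⨅ i : ℕ, IsLocalRing.maximalIdeal O ^ i := by
    rw [Ideal.mem_iInf]
    exact fun n => h n k
  rw [hbot, Ideal.mem_bot] at hmem
  exact sub_eq_zero.mp hmem

end Algebra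

section Galois

variable {A : Type} [CommRing A]

/-- `ℚ̄` -/
local notation "Qb" => AlgebraicClosure ℚ

/-- `Gal(ℚ̄/ℚ)` -/
local notation "GQ" => (AlgebraicClosure ℚ ≃ₐ[ℚ] AlgebraicClosure ℚ)

/-- If `ρ` is trivial modulo `I` on the elements fixing `L` and `τ = σ` on `L`, then
`ρ τ ≡ ρ σ` modulo `I`. -/
theorem rho_sub_mem_of_eqOn_h93 {V : Type} [AddCommGroup V] [Module A V]
    (ρ : GQ →* Module.End A V) (I : Ideal A) (L : IntermediateField ℚ Qb)
    (hL : ∀ δ : GQ, (∀ x ∈ L, δ x = x) → ∀ v : V, ρ δ v - v ∈ I • (⊤ : Submodule A V))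
    (σ τ : GQ) (hστ : ∀ x ∈ L, τ x = σ x) (v : V) :
    ρ τ v - ρ σ v ∈ I • (⊤ : Submodule A V) := by
  have hδ : ∀ x ∈ L, (σ⁻¹ * τ) x = x := by
    intro x hx
    rw [AlgEquiv.mul_apply, hστ x hx]
    exact σ.symm_apply_apply x
  have h1 := hL (σ⁻¹ * τ) hδ v
  have h2 : ρ τ v - ρ σ v = ρ σ (ρ (σ⁻¹ * τ) v - v) := by
    rw [map_sub, ← Module.End.mul_apply, ← map_mul, mul_inv_cancel_left]
  rw [h2]
  exact map_mem_smul_top_h93 I (ρ σ) h1

end Galois

section Main

/-- `ℚ̄` -/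
local notation "Qb" => AlgebraicClosure ℚ

/-- `Gal(ℚ̄/ℚ)` -/
local notation "GQ" => (AlgebraicClosure ℚ ≃ₐ[ℚ] AlgebraicClosure ℚ)

/-- **Leaf CHEB, abstract form.**  Let `G ⊆ Gal(ℚ̄/ℚ)` be a set of elements at which the
characteristic polynomials of `ρ₁` and `ρ₂` agree, and assume that every `σ` agrees with an
element of `G` on every finite extension of `ℚ` (Chebotarev).  Then the characteristic
polynomials agree everywhere. -/
theorem charpoly_eq_of_approx_h93 {O : Type} [CommRing O] [IsLocalRing O] [IsNoetherianRing O]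
    (ρ₁ ρ₂ : GaloisRepAdic O) (G : Set GQ)
    (hG : ∀ τ ∈ G, LinearMap.charpoly (ρ₁.ρ τ) = LinearMap.charpoly (ρ₂.ρ τ))
    (happrox : ∀ (E : IntermediateField ℚ Qb), FiniteDimensional ℚ E → ∀ σ : GQ,
      ∃ τ ∈ G, ∀ x ∈ E, τ x = σ x)
    (σ : GQ) : LinearMap.charpoly (ρ₁.ρ σ) = LinearMap.charpoly (ρ₂.ρ σ) := by
  refine poly_eq_of_coeff_sub_mem_pow_h93 _ _ fun n k => ?_
  obtain ⟨L₁, hL₁, h₁⟩ := ρ₁.isAdicContinuous n
  obtain ⟨L₂, hL₂, h₂⟩ := ρ₂.isAdicContinuous n
  have hfin : FiniteDimensional ℚ (L₁ ⊔ L₂ : IntermediateField ℚ Qb) :=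
    IntermediateField.finiteDimensional_sup L₁ L₂
  obtain ⟨τ, hτG, hτ⟩ := happrox (L₁ ⊔ L₂) hfin σ
  have hτ₁ : ∀ x ∈ L₁, τ x = σ x := fun x hx => hτ x ((le_sup_left : L₁ ≤ L₁ ⊔ L₂) hx)
  have hτ₂ : ∀ x ∈ L₂, τ x = σ x := fun x hx => hτ x ((le_sup_right : L₂ ≤ L₁ ⊔ L₂) hx)
  have c₁ := charpoly_coeff_sub_mem_h93 (IsLocalRing.maximalIdeal O ^ n) (ρ₁.ρ τ) (ρ₁.ρ σ)
    (rho_sub_mem_of_eqOn_h93 ρ₁.ρ _ L₁ h₁ σ τ hτ₁) k
  have c₂ := charpoly_coeff_sub_mem_h93 (IsLocalRing.maximalIdeal O ^ n) (ρ₂.ρ τ) (ρ₂.ρ σ)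
    (rho_sub_mem_of_eqOn_h93 ρ₂.ρ _ L₂ h₂ σ τ hτ₂) k
  rw [hG τ hτG] at c₁
  have : (LinearMap.charpoly (ρ₁.ρ σ)).coeff k - (LinearMap.charpoly (ρ₂.ρ σ)).coeff k =
      ((LinearMap.charpoly (ρ₂.ρ τ)).coeff k - (LinearMap.charpoly (ρ₂.ρ σ)).coeff k) -
      ((LinearMap.charpoly (ρ₂.ρ τ)).coeff k - (LinearMap.charpoly (ρ₁.ρ σ)).coeff k) := by
    ring
  rw [this]
  exact Ideal.sub_mem _ c₂ c₁

end Main

end Fermat.Agent.S58.H93
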