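import Fermat.Agent.S58.Spec
import Fermat.Agent.S58.H93.ChebCore
import Fermat.Agent.Lib.Cheb.Chebotarev

/-!
# S58, leaf CHEB (helper93)

`Fermat.Agent.S58.H93.chebCharpoly : Fermat.Agent.S58.ChebCharpolyStatement` — two
`GaloisRepAdic` over a complete DVR whose Frobenius characteristic polynomials agree at all
primes outside a finite set have the same characteristic polynomial at every element of
`Gal(ℚ̄/ℚ)`.

Proof: modulo `𝔪 ^ n` both representations factor through a finite level (adic continuity);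
by qualitative Chebotarev (`Lib.Cheb.chebotarev`) every `σ` agrees on that level with a Frobenius
element `τ` at a prime `ℓ ∉ T`; characteristic polynomials commute with the base change
`O → O ⧸ 𝔪 ^ n`; Krull's intersection theorem.  (Completeness and finiteness of the residue
field are not used.)
-/

set_option autoImplicit false

open Polynomial

namespace Fermat.Agent.S58.H93

/-- **Leaf CHEB** of `Fermat/Agent/S58/Spec.lean`. -/
theorem chebCharpoly : Fermat.Agent.S58.ChebCharpolyStatement := by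
  intro O _ _ _ _ _ ρ₁ ρ₂ T h σ
  refine charpoly_eq_of_approx_h93 ρ₁ ρ₂
    {τ | ∃ (ℓ : ℕ) (A : ValuationSubring (AlgebraicClosure ℚ)),
      ℓ.Prime ∧ ℓ ∉ T ∧ A.LiesOverPrime ℓ ∧ A.IsFrobeniusAt τ ℓ} ?_ ?_ σ
  · rintro τ ⟨ℓ, A, hℓ, hℓT, hA, hτ⟩
    exact h ℓ hℓ hℓT A hA τ hτ
  · intro E hE σ'
    obtain ⟨ℓ, A, τ, hℓ, hℓT, hA, hτ, -, hτσ⟩ := Fermat.Agent.Lib.Cheb.chebotarev E hE σ' T
    exact ⟨τ, ⟨ℓ, A, hℓ, hℓT, hA, hτ⟩, hτσ⟩

end Fermat.Agent.S58.H93
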